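/-
S18lib / Gin0 / Finite  (helper1): package (G-in0), finite part.
For the formal function field `FBar L N` of `X₀(N)` over an algebraically closed field `L ↪ ℂ` of
characteristic zero, the ramification index of EVERY place over `j = a`:
`e_P = 1` for `a ≠ 0, 1728`, `e_P ∣ 3` over `j = 0`, `e_P ∣ 2` over `j = 1728`
(Prelude `Place.ord` language).  Assembly of the ProgramR dictionary.
-/
import Fermat.Agent.ProgramR.BarField.FiniteChart

set_option autoImplicit false
set_option linter.unusedSectionVars false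

noncomputable section

namespace Fermat.Agent.S18lib.Gin0

open UpperHalfPlane Polynomial Module CongruenceSubgroup IsDedekindDomain ModularCurve AlgebraicCurve
open Fermat.Agent.ProgramR Fermat.Agent.ProgramR.BarField Fermat.Agent.ProgramR.RHLocal
open scoped Manifold MatrixGroups

attribute [local instance] Genus.cosetFintype

variable (L : Type*) [Field L] [Algebra ℚ L] (N : ℕ) [NeZero N] [CharZero L]
  [FiniteDimensional (RatFunc L) (FBar L N)] [IsAlgClosed L]

/-- every element of the finite chart is regular at a place where `j̄` is regular. -/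
lemma algebraMap_SBar_mem (P : Place L (FBar L N)) (hP : jBar L N ∈ P.toValuationSubring)
    (s : SBar L N) : algebraMap (SBar L N) (FBar L N) s ∈ P.toValuationSubring := by
  refine S24.algebraMap_mem_of_isIntegral (K := L) (F := FBar L N) (R := SBar L N) (A := L[X])
    (algebraMap L[X] (SBar L N) X) (fun p => ?_) P ?_ (Algebra.IsIntegral.isIntegral s)
  · have : algebraMap L[X] (SBar L N) p =
        Polynomial.aeval (algebraMap L[X] (SBar L N) X) p := by
      have h1 : (Polynomial.aeval (algebraMap L[X] (SBar L N) X) : L[X] →ₐ[L] SBar L N) =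
          IsScalarTower.toAlgHom L L[X] (SBar L N) := by
        apply Polynomial.algHom_ext
        simp
      rw [h1]
      rfl
    rw [this]
    exact Polynomial.aeval_mem_adjoin_singleton L _
  · rw [algebraMap_SBar_X]
    exact hP

/-- a place over `j̄ = a` is the place of a prime of the finite chart containing `X - a`. -/
lemma exists_prime_of_ord_pos (P : Place L (FBar L N)) (a : L)
    (hP : 0 < P.ord (jBar L N - algebraMap L (FBar L N) a)) :
    ∃ Q : HeightOneSpectrum (SBar L N),
      Place.ofHeightOneSpectrum (K := L) (F := FBar L N) Q = P ∧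
      algebraMap L[X] (SBar L N) (X - C a) ∈ Q.asIdeal := by
  have hj : jBar L N ∈ P.toValuationSubring := by
    have h1 : jBar L N - algebraMap L (FBar L N) a ∈ P.toValuationSubring :=
      FF.mem_of_ord_nonneg P hP.le
    have h2 : algebraMap L (FBar L N) a ∈ P.toValuationSubring := P.algebraMap_mem' a
    have := P.toValuationSubring.add_mem _ _ h1 h2
    rwa [sub_add_cancel] at this
  have hmem : P ∈ Set.range
      (Place.ofHeightOneSpectrum (K := L) (F := FBar L N) (R := SBar L N)) := by
    rw [FF.range_ofHeightOneSpectrum]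
    exact fun s => algebraMap_SBar_mem L N P hj s
  obtain ⟨Q, rfl⟩ := hmem
  refine ⟨Q, rfl, ?_⟩
  have hx : algebraMap (SBar L N) (FBar L N) (algebraMap L[X] (SBar L N) (X - C a)) =
      jBar L N - algebraMap L (FBar L N) a := by
    rw [← IsScalarTower.algebraMap_apply L[X] (SBar L N) (FBar L N), algebraMap_poly_FBar,
      map_sub, Polynomial.aeval_X, Polynomial.aeval_C]
  rw [← hx] at hP
  exact (FF.ord_algebraMap_pos_iff (K := L) (F := FBar L N) Q _
    (algebraMap_X_sub_C_ne_zero L N a)).mp hP

/-- the prime of `L[X]` under a prime of the finite chart containing `X - a`. -/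
lemma comap_eq_span (Q : HeightOneSpectrum (SBar L N)) (a : L)
    (hQ : algebraMap L[X] (SBar L N) (X - C a) ∈ Q.asIdeal) :
    Q.asIdeal.comap (algebraMap L[X] (SBar L N)) = Ideal.span {(X - C a : L[X])} := by
  have hmax := span_X_sub_C_isMaximal (k := L) a
  have hle : Ideal.span {(X - C a : L[X])} ≤ Q.asIdeal.comap (algebraMap L[X] (SBar L N)) := by
    rw [Ideal.span_le, Set.singleton_subset_iff]
    exact hQ
  have hne : Q.asIdeal.comap (algebraMap L[X] (SBar L N)) ≠ ⊤ :=
    (Ideal.comap_isPrime (algebraMap L[X] (SBar L N)) Q.asIdeal).ne_top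
  exact (hmax.eq_of_le hne hle).symm

/-- the order of `j̄ - a` at the place of `Q` is the ramification index of `Q`. -/
lemma ord_eq_ramificationIdx (Q : HeightOneSpectrum (SBar L N)) (a : L)
    (hQ : algebraMap L[X] (SBar L N) (X - C a) ∈ Q.asIdeal) :
    (Place.ofHeightOneSpectrum (K := L) (F := FBar L N) Q).ord
      (jBar L N - algebraMap L (FBar L N) a) = (Q.asIdeal.ramificationIdx L[X] : ℤ) := by
  have hx : algebraMap (SBar L N) (FBar L N) (algebraMap L[X] (SBar L N) (X - C a)) =
      jBar L N - algebraMap L (FBar L N) a := by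
    rw [← IsScalarTower.algebraMap_apply L[X] (SBar L N) (FBar L N), algebraMap_poly_FBar,
      map_sub, Polynomial.aeval_X, Polynomial.aeval_C]
  rw [← hx, FF.ord_algebraMap_eq_count (K := L) (F := FBar L N) Q
    (algebraMap_X_sub_C_ne_zero L N a)]
  have : Q.asIdeal.LiesOver (Ideal.span {(X - C a : L[X])}) :=
    ⟨(comap_eq_span L N Q a hQ).symm⟩
  have hmap : (Ideal.span {(X - C a : L[X])}).map (algebraMap L[X] (SBar L N)) =
      Ideal.span {algebraMap L[X] (SBar L N) (X - C a)} := by
    rw [Ideal.map_span, Set.image_singleton]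
  have hne : (Ideal.span {(X - C a : L[X])}).map (algebraMap L[X] (SBar L N)) ≠ ⊥ := by
    rw [hmap, Ne, Ideal.span_singleton_eq_bot]
    exact algebraMap_X_sub_C_ne_zero L N a
  rw [Ideal.IsDedekindDomain.ramificationIdx_eq_normalizedFactors_count
    (Ideal.span {(X - C a : L[X])}) Q.asIdeal hne, hmap]

variable (e : L →+* ℂ)

include e in
/-- **Ramification over `j̄ = a`**: the order of `j̄ - a` at a place over `a` divides the local
order `jOrder z₀` of `j` at a point `z₀` with `j z₀ = a`. -/
theorem ord_dvd_jOrder (hdeg : finrank (RatFunc L) (FBar L N) = dedekindPsi N)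
    (P : Place L (FBar L N)) (a : L)
    (hP : 0 < P.ord (jBar L N - algebraMap L (FBar L N) a)) (z₀ : ℍ)
    (hz : LevelOne.jInv z₀ = e a) :
    P.ord (jBar L N - algebraMap L (FBar L N) a) ∣ (LevelOne.jOrder z₀ : ℤ) := by
  obtain ⟨Q, rfl, hQ⟩ := exists_prime_of_ord_pos L N P a hP
  rw [ord_eq_ramificationIdx L N Q a hQ]
  have := Q.isPrime
  obtain ⟨x, hx⟩ := (barChart L N e).exists_center_eq (barChart_card L N hdeg) z₀ a hz Q.asIdeal
    (comap_eq_span L N Q a hQ)
  have h1 := ((barChart L N e).fiber_eq_orbit (barChart_card L N hdeg) (neg_one_mem_Gamma0 N)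
    z₀ a hz x).2
  rw [hx] at h1
  rw [h1]
  exact Int.natCast_dvd_natCast.mpr (card_orbit_dvd_jOrder (neg_one_mem_Gamma0 N) z₀ x)

include e in
/-- (a) unramified over `j̄ = a`, `a ≠ 0, 1728`. -/
theorem ord_sub_eq_one_gen (hdeg : finrank (RatFunc L) (FBar L N) = dedekindPsi N)
    (P : Place L (FBar L N)) (a : L) (h0 : a ≠ 0) (h1728 : a ≠ 1728)
    (hP : 0 < P.ord (jBar L N - algebraMap L (FBar L N) a)) :
    P.ord (jBar L N - algebraMap L (FBar L N) a) = 1 := by
  obtain ⟨z₀, hz⟩ := LevelOne.jInv_surjective (e a)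
  have h := ord_dvd_jOrder L N e hdeg P a hP z₀ hz
  have h4 : ModularForm.E₄ z₀ ≠ 0 := by
    intro h4
    have : e a = 0 := by rw [← hz]; exact (LevelOne.jInv_eq_zero_iff z₀).mpr h4
    exact h0 ((map_eq_zero e).mp this)
  have h6 : ModularForm.E₆ z₀ ≠ 0 := by
    intro h6
    have h' : e a = 1728 := by rw [← hz]; exact (LevelOne.jInv_eq_1728_iff z₀).mpr h6
    apply h1728
    apply e.injective
    rw [h', map_ofNat]
  have hj : LevelOne.jOrder z₀ = 1 := by
    unfold LevelOne.jOrder
    rw [if_neg h4, if_neg h6]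
  rw [hj] at h
  exact Int.eq_one_of_dvd_one hP.le h

include e in
/-- (b) `e_P ∣ 3` over `j̄ = 0`. -/
theorem ord_dvd_three_gen (hdeg : finrank (RatFunc L) (FBar L N) = dedekindPsi N)
    (P : Place L (FBar L N)) (hP : 0 < P.ord (jBar L N)) : P.ord (jBar L N) ∣ 3 := by
  have hP' : 0 < P.ord (jBar L N - algebraMap L (FBar L N) 0) := by
    rwa [map_zero, sub_zero]
  have h := ord_dvd_jOrder L N e hdeg P 0 hP' UpperHalfPlane.ρ
    (by rw [map_zero]; exact LevelOne.jInv_ρ)
  rw [map_zero, sub_zero] at h
  have hj : LevelOne.jOrder UpperHalfPlane.ρ = 3 := by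
    unfold LevelOne.jOrder
    rw [if_pos LevelOne.E₄_ρ]
  rw [hj] at h
  exact_mod_cast h

include e in
/-- (c) `e_P ∣ 2` over `j̄ = 1728`. -/
theorem ord_sub_dvd_two_gen (hdeg : finrank (RatFunc L) (FBar L N) = dedekindPsi N)
    (P : Place L (FBar L N))
    (hP : 0 < P.ord (jBar L N - algebraMap L (FBar L N) 1728)) :
    P.ord (jBar L N - algebraMap L (FBar L N) 1728) ∣ 2 := by
  have h := ord_dvd_jOrder L N e hdeg P 1728 hP UpperHalfPlane.I
    (by rw [map_ofNat]; exact LevelOne.jInv_I)
  have h4 : ModularForm.E₄ UpperHalfPlane.I ≠ 0 :=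
    LevelOne.E₄_ne_zero_of_E₆_eq_zero LevelOne.E₆_I
  have hj : LevelOne.jOrder UpperHalfPlane.I = 2 := by
    unfold LevelOne.jOrder
    rw [if_neg h4, if_pos LevelOne.E₆_I]
  rw [hj] at h
  exact_mod_cast h

end Fermat.Agent.S18lib.Gin0
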