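/-
S18lib / Gin0 / Main  (helper1): package (G-in0) = characteristic-0 ramification input for
`FBar N = ℚ̄(X₀(N))` over `ℚ̄(j)` in the Prelude `Place` language:
`[FBar N : ℚ̄(j)] = ψ(N)`, and for EVERY place `P`:
(a) `e_P = 1` over `j = a`, `a ≠ 0, 1728`; (b) `e_P ∣ 3` over `j = 0`; (c) `e_P ∣ 2` over
`j = 1728`; (d) the pole orders of `j` divide `N`.
Also re-exported: the S24 fibre counts.
-/
import Fermat.Agent.S18lib.Setup.Modular
import Fermat.Agent.S18lib.Gin0.Finite
import Fermat.Agent.S18lib.Gin0.Infinity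
import Fermat.Agent.ProgramR.BarField.Degree
import Fermat.Agent.ProgramR.RHLocal.Global

set_option autoImplicit false

noncomputable section

namespace Fermat.Agent.S18lib.Gin0

open AlgebraicCurve ModularCurve IntermediateField Fermat.Agent.ProgramR.BarField
open Fermat.Agent.ProgramR.RHLocal

variable (N : ℕ) [NeZero N]

/-- the function `j = j(q)` of `FBar N` -/
def jF : FBar N := jBar (AlgebraicClosure ℚ) N

theorem coe_jF : ((jF N : FBar N) : LaurentSeries (AlgebraicClosure ℚ)) =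
    jqModC (AlgebraicClosure ℚ) := coe_jBar (AlgebraicClosure ℚ) N

theorem transcendental_jF : Transcendental (AlgebraicClosure ℚ) (jF N) :=
  transcendental_jBar (AlgebraicClosure ℚ) N

instance finiteDimensional_jF : FiniteDimensional (AlgebraicClosure ℚ)⟮jF N⟯ (FBar N) :=
  finiteDimensional_jBar_Qbar N

theorem finrank_jF : Module.finrank (AlgebraicClosure ℚ)⟮jF N⟯ (FBar N) = dedekindPsi N :=
  finrank_jBar_Qbar N

/-- (a) unramified over `j = a`, `a ≠ 0, 1728` -/
theorem ord_sub_eq_one (P : Place (AlgebraicClosure ℚ) (FBar N)) (a : AlgebraicClosure ℚ)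
    (h0 : a ≠ 0) (h1728 : a ≠ 1728)
    (hP : 0 < P.ord (jF N - algebraMap (AlgebraicClosure ℚ) (FBar N) a)) :
    P.ord (jF N - algebraMap (AlgebraicClosure ℚ) (FBar N) a) = 1 :=
  ord_sub_eq_one_gen (AlgebraicClosure ℚ) N qbarEmb (finrank_ratFunc_Qbar N) P a h0 h1728 hP

/-- (b) `e_P ∣ 3` over `j = 0` -/
theorem ord_dvd_three (P : Place (AlgebraicClosure ℚ) (FBar N)) (hP : 0 < P.ord (jF N)) :
    P.ord (jF N) ∣ 3 :=
  ord_dvd_three_gen (AlgebraicClosure ℚ) N qbarEmb (finrank_ratFunc_Qbar N) P hP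

/-- (c) `e_P ∣ 2` over `j = 1728` -/
theorem ord_sub_dvd_two (P : Place (AlgebraicClosure ℚ) (FBar N))
    (hP : 0 < P.ord (jF N - algebraMap (AlgebraicClosure ℚ) (FBar N) 1728)) :
    P.ord (jF N - algebraMap (AlgebraicClosure ℚ) (FBar N) 1728) ∣ 2 :=
  ord_sub_dvd_two_gen (AlgebraicClosure ℚ) N qbarEmb (finrank_ratFunc_Qbar N) P hP

/-- (d) pole orders of `j` (cusp widths) divide `N` -/
theorem ord_dvd_level (P : Place (AlgebraicClosure ℚ) (FBar N)) (hP : P.ord (jF N) < 0) :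
    P.ord (jF N) ∣ (N : ℤ) :=
  ord_dvd_level_gen (AlgebraicClosure ℚ) N qbarEmb (finrank_ratFunc_Qbar N) P hP

/-! ### The fibre counts (S24), re-exported for `jF` -/

theorem card_fibre_jF (a : AlgebraicClosure ℚ) (h0 : a ≠ 0) (h1728 : a ≠ 1728) :
    Nat.card (fibre (K := AlgebraicClosure ℚ) (jF N) a) = dedekindPsi N :=
  card_fibre_generic (AlgebraicClosure ℚ) N qbarEmb (finrank_ratFunc_Qbar N) a h0 h1728

theorem three_mul_card_fibre_jF_zero :
    3 * Nat.card (fibre (K := AlgebraicClosure ℚ) (jF N) (0 : AlgebraicClosure ℚ)) =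
      dedekindPsi N + 2 * nuThree N :=
  three_mul_card_fibre_zero (AlgebraicClosure ℚ) N qbarEmb (finrank_ratFunc_Qbar N)

theorem two_mul_card_fibre_jF_1728 :
    2 * Nat.card (fibre (K := AlgebraicClosure ℚ) (jF N) (1728 : AlgebraicClosure ℚ)) =
      dedekindPsi N + nuTwo N :=
  two_mul_card_fibre_1728 (AlgebraicClosure ℚ) N qbarEmb (finrank_ratFunc_Qbar N)

theorem card_polar_jF :
    Nat.card (polar (K := AlgebraicClosure ℚ) (jF N)) = cuspCount N :=
  card_polar_jBar N qbarEmb (finrank_ratFunc_Qbar N)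

end Fermat.Agent.S18lib.Gin0
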