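/-
S18lib / Gin0 / RH  (helper1): package (RH0) = the characteristic-0 Riemann–Hurwitz count for
`FBar M = ℚ̄(X₀(M))` over `ℚ̄(j)` in final form, at every level `M`.
Input `hg`: the RRgen formula `2g - 2 = -2n + deg Diff_fin + deg Diff_inf` for the two charts
`SBar ℚ̄ M`, `RInf ℚ̄ M` of ProgramR.  Output:
* `rh_count`               : `2g - 2 = ∑_{a ∈ {0,1728}} (ψ - #zeros (j - a)) + (ψ - #poles j) - 2ψ`
* `genus_eq_genusFormula`  : `(g : ℚ) = genusFormula M`
* `rh_of_four_dvd`, `rh_of_nine_dvd` : `12 (g - 1) = ψ(M) - 6 cuspCount M` when `4 ∣ M` or `9 ∣ M`.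
-/
import Fermat.Agent.S18lib.Gin0.Main
import Fermat.Agent.S18lib.RHCount.RRgenSetting

set_option autoImplicit false
set_option linter.style.haveILetI false

noncomputable section

namespace Fermat.Agent.S18lib.Gin0

open AlgebraicCurve ModularCurve IntermediateField Polynomial UniqueFactorizationMonoid
open Fermat.Agent.ProgramR Fermat.Agent.ProgramR.BarField Fermat.Agent.ProgramR.RHLocal
  Fermat.Agent.ProgramR.RR

/-! ### Vanishing of `ν₂`, `ν₃` -/

section Nu

theorem nuTwo_eq_zero_of_dvd {d M : ℕ} (hd : d ∣ M)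
    (h : ∀ x : ZMod d, x ^ 2 + 1 ≠ 0) : nuTwo M = 0 := by
  unfold nuTwo
  haveI : IsEmpty {x : ZMod M // x ^ 2 + 1 = 0} := by
    refine ⟨fun x => h (ZMod.castHom hd (ZMod d) x.1) ?_⟩
    rw [← map_pow, ← map_one (ZMod.castHom hd (ZMod d)), ← map_add, x.2, map_zero]
  exact Nat.card_of_isEmpty

theorem nuThree_eq_zero_of_dvd {d M : ℕ} (hd : d ∣ M)
    (h : ∀ x : ZMod d, x ^ 2 + x + 1 ≠ 0) : nuThree M = 0 := by
  unfold nuThree
  haveI : IsEmpty {x : ZMod M // x ^ 2 + x + 1 = 0} := by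
    refine ⟨fun x => h (ZMod.castHom hd (ZMod d) x.1) ?_⟩
    rw [← map_pow, ← map_one (ZMod.castHom hd (ZMod d)), ← map_add, ← map_add, x.2, map_zero]
  exact Nat.card_of_isEmpty

theorem nuTwo_eq_zero_of_four_dvd {M : ℕ} (h : 4 ∣ M) : nuTwo M = 0 :=
  nuTwo_eq_zero_of_dvd h (by decide)

theorem nuTwo_eq_zero_of_three_dvd {M : ℕ} (h : 3 ∣ M) : nuTwo M = 0 :=
  nuTwo_eq_zero_of_dvd h (by decide)

theorem nuThree_eq_zero_of_two_dvd {M : ℕ} (h : 2 ∣ M) : nuThree M = 0 :=
  nuThree_eq_zero_of_dvd h (by decide)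

theorem nuThree_eq_zero_of_nine_dvd {M : ℕ} (h : 9 ∣ M) : nuThree M = 0 :=
  nuThree_eq_zero_of_dvd h (by decide)

end Nu

variable (N : ℕ) [NeZero N]

local notation "Qb" => AlgebraicClosure ℚ

theorem algebraMap_ratFunc_X_eq_jF :
    algebraMap (RatFunc Qb) (BarField.FBar Qb N) RatFunc.X = jF N :=
  algebraMap_ratFunc_X Qb N

/-- the shape of the RRgen Riemann–Hurwitz formula for `FBar N` with the ProgramR charts. -/
def RHFormula (g : ℕ) : Prop :=
  2 * (g : ℤ) - 2 = -2 * (Module.finrank (RatFunc Qb) (BarField.FBar Qb N) : ℤ)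
    + Multiset.card (normalizedFactors (differentIdeal Qb[X] (SBar Qb N)))
    + Multiset.card (normalizedFactors (differentIdeal (Ainf Qb) (RInf Qb N)))

/-- **RH in fibre-count form over the `j`-line** (`S = {0, 1728}`). -/
theorem rh_count {g : ℕ} (hg : RHFormula N g) :
    2 * (g : ℤ) - 2 =
      (∑ a ∈ ({0, 1728} : Finset Qb), ((dedekindPsi N : ℤ) -
        Nat.card (Tame.zerosOf (K := Qb) (jF N - algebraMap Qb (FBar N) a))))
      + ((dedekindPsi N : ℤ) - Nat.card (Tame.polesOf (K := Qb) (jF N)))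
      - 2 * (dedekindPsi N : ℤ) := by
  have h := RHCount.rh_eq Qb (BarField.FBar Qb N) (SBar Qb N) (RInf Qb N) hg ({0, 1728} : Finset Qb)
    (fun a ha P hP => by
      rw [algebraMap_ratFunc_X_eq_jF] at hP ⊢
      rw [Finset.mem_insert, Finset.mem_singleton, not_or] at ha
      exact ord_sub_eq_one N P a ha.1 ha.2 hP)
  rw [algebraMap_ratFunc_X_eq_jF, finrank_ratFunc_Qbar] at h
  exact h

/-- the same with the two fibres written out. -/
theorem rh_count' {g : ℕ} (hg : RHFormula N g) :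
    2 * (g : ℤ) - 2 =
      ((dedekindPsi N : ℤ) - Nat.card (fibre (K := Qb) (jF N) (0 : Qb)))
      + ((dedekindPsi N : ℤ) - Nat.card (fibre (K := Qb) (jF N) (1728 : Qb)))
      + ((dedekindPsi N : ℤ) - Nat.card (polar (K := Qb) (jF N)))
      - 2 * (dedekindPsi N : ℤ) := by
  have h := rh_count N hg
  have hne : (0 : Qb) ∉ ({1728} : Finset Qb) := by
    rw [Finset.mem_singleton]
    norm_num
  rw [Finset.sum_insert hne, Finset.sum_singleton] at h
  exact h

/-- **the genus of `IsCurveOfGenus` is the classical one**: `12 (g - 1) = ψ - 3ν₂ - 4ν₃ - 6c`. -/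
theorem twelve_mul_genus_sub_one {g : ℕ} (hg : RHFormula N g) :
    12 * ((g : ℤ) - 1) =
      (dedekindPsi N : ℤ) - 3 * nuTwo N - 4 * nuThree N - 6 * cuspCount N := by
  have h := rh_count' N hg
  have h0 := three_mul_card_fibre_jF_zero N
  have h1 := two_mul_card_fibre_jF_1728 N
  have hc := card_polar_jF N
  rw [hc] at h
  have h0' : (3 : ℤ) * Nat.card (fibre (K := Qb) (jF N) (0 : Qb)) =
      (dedekindPsi N : ℤ) + 2 * nuThree N := by exact_mod_cast h0
  have h1' : (2 : ℤ) * Nat.card (fibre (K := Qb) (jF N) (1728 : Qb)) =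
      (dedekindPsi N : ℤ) + nuTwo N := by exact_mod_cast h1
  linarith

theorem genus_eq_genusFormula {g : ℕ} (hg : RHFormula N g) :
    (g : ℚ) = genusFormula N := by
  have h := twelve_mul_genus_sub_one N hg
  have h' : (12 : ℚ) * ((g : ℚ) - 1) =
      (dedekindPsi N : ℚ) - 3 * nuTwo N - 4 * nuThree N - 6 * cuspCount N := by exact_mod_cast h
  unfold genusFormula
  linarith

/-- level divisible by `4` (the auxiliary level `4N` for `ℓ = 3`). -/
theorem rh_of_four_dvd (h4 : 4 ∣ N) {g : ℕ} (hg : RHFormula N g) :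
    12 * ((g : ℤ) - 1) = (dedekindPsi N : ℤ) - 6 * cuspCount N := by
  have h := twelve_mul_genus_sub_one N hg
  rw [nuTwo_eq_zero_of_four_dvd h4,
    nuThree_eq_zero_of_two_dvd (Dvd.dvd.trans (by norm_num) h4)] at h
  simpa using h

/-- level divisible by `9` (the auxiliary level `9N` for `ℓ = 2`). -/
theorem rh_of_nine_dvd (h9 : 9 ∣ N) {g : ℕ} (hg : RHFormula N g) :
    12 * ((g : ℤ) - 1) = (dedekindPsi N : ℤ) - 6 * cuspCount N := by
  have h := twelve_mul_genus_sub_one N hg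
  rw [nuThree_eq_zero_of_nine_dvd h9,
    nuTwo_eq_zero_of_three_dvd (Dvd.dvd.trans (by norm_num) h9)] at h
  simpa using h

end Fermat.Agent.S18lib.Gin0
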