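/-
S18lib / Gin0 / Genus  (helper1): the characteristic-0 side of `G.exists_genus` in final form:
`∃ g, IsCurveOfGenus ℚ̄ (FBar N) g ∧ RHFormula N g` (RRgen at the ProgramR charts `SBar`, `RInf`),
and `deg (j)_∞ = ψ(N)`.
-/
import Fermat.Agent.S18lib.Gin0.RH
import Fermat.Agent.S18lib.RRgen.Main
import Fermat.Agent.S18lib.RHCount.PoleDegree

set_option autoImplicit false

noncomputable section

namespace Fermat.Agent.S18lib.Gin0

open AlgebraicCurve ModularCurve Polynomial
open Fermat.Agent.ProgramR Fermat.Agent.ProgramR.BarField Fermat.Agent.ProgramR.RR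

variable (N : ℕ) [NeZero N]

local notation "Qb" => AlgebraicClosure ℚ

/-- **char-0 side**: `FBar N` is a curve of some genus `g` satisfying the RH formula. -/
theorem exists_isCurveOfGenus_FBar :
    ∃ g : ℕ, IsCurveOfGenus Qb (S18lib.FBar N) g ∧ RHFormula N g :=
  RRgen.exists_isCurveOfGenus Qb (BarField.FBar Qb N) (SBar Qb N) (RInf Qb N)

/-- `deg (j)_∞ = ψ(N)`. -/
theorem degree_poleDiv_jF [HasPrincipalDivisors Qb (S18lib.FBar N)] :
    Divisor.degree (Tame.poleDiv (K := Qb) (jF N)) = (dedekindPsi N : ℤ) := by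
  have h := RHCount.degree_poleDiv_eq_finrank Qb (BarField.FBar Qb N) (RInf Qb N)
  rw [algebraMap_ratFunc_X_eq_jF, finrank_ratFunc_Qbar] at h
  exact h

end Fermat.Agent.S18lib.Gin0
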