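/-
S18lib / Gin0 / Infinity  (helper1): package (G-in0), part at infinity.
For the formal function field `FBar L N` of `X₀(N)` over an algebraically closed field `L ↪ ℂ` of
characteristic zero, the pole order of `j̄` at EVERY pole divides `N` (cusp widths).
Assembly of the ProgramR dictionary at infinity.
-/
import Fermat.Agent.ProgramR.BarField.PolarBar

set_option autoImplicit false
set_option linter.unusedSectionVars false

noncomputable section

namespace Fermat.Agent.S18lib.Gin0

open Polynomial Module IsDedekindDomain ModularCurve AlgebraicCurve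
open Fermat.Agent.ProgramR Fermat.Agent.ProgramR.BarField Fermat.Agent.ProgramR.RR
  Fermat.Agent.ProgramR.Alg Fermat.Agent.ProgramR.CuspLocal
open scoped MatrixGroups

attribute [local instance] Genus.cosetFintype

variable (L : Type*) [Field L] [Algebra ℚ L] (N : ℕ) [NeZero N] [CharZero L]
  [FiniteDimensional (RatFunc L) (FBar L N)] [IsAlgClosed L]

/-- a pole of `j̄` is the place of a prime of the chart at infinity. -/
lemma exists_prime_of_ord_neg (P : Place L (FBar L N)) (hP : P.ord (jBar L N) < 0) :
    ∃ Q : HeightOneSpectrum (RInf L N),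
      Place.ofHeightOneSpectrum (K := L) (F := FBar L N) Q = P := by
  have hmem : P ∈ Set.range
      (Place.ofHeightOneSpectrum (K := L) (F := FBar L N) (R := RInf L N)) := by
    rw [FF.range_ofHeightOneSpectrum]
    exact fun s => algebraMap_RInf_mem N P hP s
  exact hmem

lemma algebraMap_XinvAinf_ne_zero :
    algebraMap (Ainf L) (RInf L N) XinvAinf ≠ 0 := by
  intro h0
  have h1 := congrArg (algebraMap (RInf L N) (FBar L N)) h0
  rw [BarField.algebraMap_XinvAinf N, map_zero] at h1
  exact inv_ne_zero (jBar_ne_zero N) h1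

/-- every prime of the chart at infinity lies over the maximal ideal of `Ainf`. -/
lemma comap_eq_maximalIdeal (Q : HeightOneSpectrum (RInf L N)) :
    Q.asIdeal.comap (algebraMap (Ainf L) (RInf L N)) = IsLocalRing.maximalIdeal (Ainf L) := by
  have := Q.isPrime
  have hne : Q.asIdeal.comap (algebraMap (Ainf L) (RInf L N)) ≠ ⊥ := by
    obtain ⟨x, hxP, hx0⟩ := Submodule.exists_mem_ne_zero_of_ne_bot Q.ne_bot
    exact Ideal.comap_ne_bot_of_integral_mem hx0 hxP (Algebra.IsIntegral.isIntegral x)
  have hprime : (Q.asIdeal.comap (algebraMap (Ainf L) (RInf L N))).IsPrime :=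
    Ideal.comap_isPrime _ _
  exact IsLocalRing.eq_maximalIdeal (hprime.isMaximal hne)

/-- the order of `j̄⁻¹` at the place of `Q` is the ramification index of `Q`. -/
lemma ord_inv_eq_ramificationIdx (Q : HeightOneSpectrum (RInf L N)) :
    (Place.ofHeightOneSpectrum (K := L) (F := FBar L N) Q).ord (jBar L N)⁻¹ =
      (Q.asIdeal.ramificationIdx (Ainf L) : ℤ) := by
  rw [← BarField.algebraMap_XinvAinf N, FF.ord_algebraMap_eq_count (K := L) (F := FBar L N) Q
    (algebraMap_XinvAinf_ne_zero L N)]
  have : Q.asIdeal.LiesOver (IsLocalRing.maximalIdeal (Ainf L)) :=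
    ⟨(comap_eq_maximalIdeal L N Q).symm⟩
  have hmap : (IsLocalRing.maximalIdeal (Ainf L)).map (algebraMap (Ainf L) (RInf L N)) =
      Ideal.span {algebraMap (Ainf L) (RInf L N) XinvAinf} := by
    rw [maximalIdeal_Ainf_eq, Ideal.map_span, Set.image_singleton]
  have hne : (IsLocalRing.maximalIdeal (Ainf L)).map (algebraMap (Ainf L) (RInf L N)) ≠ ⊥ := by
    rw [hmap, Ne, Ideal.span_singleton_eq_bot]
    exact algebraMap_XinvAinf_ne_zero L N
  rw [Ideal.IsDedekindDomain.ramificationIdx_eq_normalizedFactors_count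
    (IsLocalRing.maximalIdeal (Ainf L)) Q.asIdeal hne, hmap]

variable (e : L →+* ℂ)

include e in
/-- (d) the pole orders of `j̄` divide `N`. -/
theorem ord_dvd_level_gen (hdeg : finrank (RatFunc L) (FBar L N) = dedekindPsi N)
    (P : Place L (FBar L N)) (hP : P.ord (jBar L N) < 0) : P.ord (jBar L N) ∣ (N : ℤ) := by
  obtain ⟨Q, rfl⟩ := exists_prime_of_ord_neg L N P hP
  have h1 := ord_inv_eq_ramificationIdx L N Q
  rw [Place.ord_inv] at h1
  have hcard : Fintype.card (SL(2, ℤ) ⧸ CongruenceSubgroup.Gamma0 N) =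
      finrank (RatFunc L) (FBar L N) := by rw [hdeg, Genus.card_coset N]
  obtain ⟨i, hi⟩ := (barFamily N e).exists_center_eq (RInf L N) hcard Q
  have h2 := (barFamily N e).ramificationIdx_center (RInf L N) hcard (barFamily_order_smul N e)
    (barFamily_orbSize_dvd N e) (barFamily_supp N e) i
  rw [hi] at h2
  have h3 := barFamily_orbSize_dvd N e i
  rw [barFamily_poleOrder, ← h2] at h3
  have h4 : ((Q.asIdeal.ramificationIdx (Ainf L) : ℕ) : ℤ) ∣ (N : ℤ) :=
    Int.natCast_dvd_natCast.mpr h3
  rw [← h1] at h4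
  exact (neg_dvd).mp h4

end Fermat.Agent.S18lib.Gin0
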